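import Fermat.Agent.S24.Residue
import Fermat.Agent.S24.SumOrd

set_option autoImplicit false

/-!
# DIV task BC-Abs : places and extension of the (algebraically closed) constant field, abstract part

`K ⊆ K'` algebraically closed, `F / K` a function field, `F' = Frac (K' ⊗_K F)`.  `e : S → K'` is a family which is
linearly independent over `K` and such that every element of `F'` is a quotient of two sums `∑ e_s ι(a_s)`.

KEY FORMULA (`ord_lam`): if `w.ord (ι f) = μ * v.ord f` for all `f`, then `w.ord (∑ e_s ι(a_s)) = μ * min_s v.ord (a_s)`.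
(Reduce to `min = 0` with a uniformiser; then `a_s = c_s + (positive order)` with `c_s ∈ K` not all zero, and `∑ e_s c_s ≠ 0`.)
Consequences: `w` is determined by `v`, `μ = 1`, and a place `w` of `F'` which is not trivial on `ι F` lies over a place of `F`.
-/

namespace Fermat.Agent.DIV.BC

open AlgebraicCurve Fermat.Agent.S24

variable {K K' F F' S : Type*} [Field K] [Field K'] [Field F] [Field F'] [Algebra K F]
  [Algebra K' F']

/-- `∑_{s ∈ T} e_s ι(a_s)`. -/
noncomputable def lam (ι : F →+* F') (e : S → K') (T : Finset S) (a : S → F) : F' :=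
  ∑ s ∈ T, algebraMap K' F' (e s) * ι (a s)

/-- `F'` is the base change of `F` from `K` to `K'`. -/
structure IsBC (i : K →+* K') (ι : F →+* F') (e : S → K') : Prop where
  compat : ∀ a : K, ι (algebraMap K F a) = algebraMap K' F' (i a)
  li : ∀ (T : Finset S) (c : S → K), ∑ s ∈ T, e s * i (c s) = 0 → ∀ s ∈ T, c s = 0
  span : ∀ y : F', ∃ (T : Finset S) (a c : S → F),
    lam ι e T c ≠ 0 ∧ y * lam ι e T c = lam ι e T a

/-- `w` lies over `v` with multiplicity `μ`. -/
def Over (ι : F →+* F') (w : Place K' F') (v : Place K F) (μ : ℤ) : Prop :=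
  ∀ f : F, w.ord (ι f) = μ * v.ord f

theorem abs_sum_pos (w : Place K' F') (T : Finset S) (x : S → F')
    (hx : ∀ s ∈ T, x s = 0 ∨ 0 < w.ord (x s)) :
    ∑ s ∈ T, x s = 0 ∨ 0 < w.ord (∑ s ∈ T, x s) := by
  classical
  induction T using Finset.induction_on with
  | empty => left; simp
  | insert s T hs ih =>
    rw [Finset.sum_insert hs]
    have h1 := hx s (Finset.mem_insert_self s T)
    have h2 := ih (fun s' hs' => hx s' (Finset.mem_insert_of_mem hs'))
    by_cases h0 : x s + ∑ s ∈ T, x s = 0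
    · exact Or.inl h0
    right
    rcases h1 with h1 | h1
    · rw [h1, zero_add] at h0 ⊢
      exact h2.resolve_left h0
    rcases h2 with h2 | h2
    · rw [h2, add_zero]
      exact h1
    have := min_le_ord_add w h0
    rcases min_le_iff.1 this with h | h <;> omega

variable {i : K →+* K'} {ι : F →+* F'} {e : S → K'}

theorem abs_lam_mul (T : Finset S) (a : S → F) (b : F) :
    lam ι e T (fun s => a s * b) = lam ι e T a * ι b := by
  unfold lam
  rw [Finset.sum_mul]
  refine Finset.sum_congr rfl fun s _ => ?_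
  rw [map_mul, mul_assoc]

theorem abs_ord_lam_zero [IsAlgClosed K] (hF : IsFF1 K F) (h : IsBC i ι e)
    {w : Place K' F'} {v : Place K F} {μ : ℤ} (hμ : 0 < μ) (hw : Over ι w v μ)
    (T : Finset S) (a : S → F) (hn : ∀ s ∈ T, 0 ≤ v.ord (a s))
    (s₀ : S) (hs₀ : s₀ ∈ T) (h0 : a s₀ ≠ 0) (h1 : v.ord (a s₀) = 0) :
    lam ι e T a ≠ 0 ∧ w.ord (lam ι e T a) = 0 := by
  classical
  have hex : ∀ s, ∃ c : K, s ∈ T →
      (a s = algebraMap K F c ∨ 0 < v.ord (a s - algebraMap K F c)) := by
    intro s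
    by_cases hs : s ∈ T
    · obtain ⟨c, hc⟩ := exists_const_sub hF v (hn s hs)
      exact ⟨c, fun _ => hc⟩
    · exact ⟨0, fun h => absurd h hs⟩
  choose c hc using hex
  set γ : K' := ∑ s ∈ T, e s * i (c s) with hγ
  have hγ0 : γ ≠ 0 := by
    intro hz
    have hc0 := h.li T c hz s₀ hs₀
    rcases hc s₀ hs₀ with h2 | h2
    · rw [hc0, map_zero] at h2
      exact h0 h2
    · rw [hc0, map_zero, sub_zero, h1] at h2
      exact lt_irrefl _ h2
  set r : F' := ∑ s ∈ T, algebraMap K' F' (e s) * ι (a s - algebraMap K F (c s)) with hr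
  have hsplit : lam ι e T a = algebraMap K' F' γ + r := by
    rw [hγ, hr, map_sum, ← Finset.sum_add_distrib]
    refine Finset.sum_congr rfl fun s _ => ?_
    rw [map_sub, h.compat, map_mul]
    ring
  have hrpos : r = 0 ∨ 0 < w.ord r := by
    apply abs_sum_pos
    intro s hs
    by_cases he : e s = 0
    · left; rw [he, map_zero, zero_mul]
    rcases hc s hs with h2 | h2
    · left; rw [h2, sub_self, map_zero, mul_zero]
    · right
      have hne : a s - algebraMap K F (c s) ≠ 0 := by
        intro hz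
        rw [hz, Place.ord_zero] at h2
        exact lt_irrefl _ h2
      rw [w.ord_mul ((map_ne_zero _).2 he) ((map_ne_zero ι).2 hne), ord_algebraMap, zero_add, hw]
      positivity
  have hγ' : algebraMap K' F' γ ≠ 0 := (map_ne_zero _).2 hγ0
  rw [hsplit]
  rcases hrpos with hr0 | hr0
  · rw [hr0, add_zero]
    exact ⟨hγ', ord_algebraMap w γ⟩
  · have h3 : w.ord (algebraMap K' F' γ) < w.ord r := by rw [ord_algebraMap]; exact hr0
    refine ⟨?_, by rw [ord_add_eq_of_lt w hγ' h3, ord_algebraMap]⟩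
    intro hz
    have h4 : r = -algebraMap K' F' γ := by
      rw [eq_neg_iff_add_eq_zero, add_comm]; exact hz
    rw [h4, ord_neg, ord_algebraMap] at hr0
    exact lt_irrefl _ hr0

/-- the KEY FORMULA. -/
theorem ord_lam [IsAlgClosed K] (hF : IsFF1 K F) (h : IsBC i ι e)
    {w : Place K' F'} {v : Place K F} {μ : ℤ} (hμ : 0 < μ) (hw : Over ι w v μ)
    (T : Finset S) (a : S → F) (n : ℤ) (hn : ∀ s ∈ T, a s = 0 ∨ n ≤ v.ord (a s))
    (s₀ : S) (hs₀ : s₀ ∈ T) (h0 : a s₀ ≠ 0) (h1 : v.ord (a s₀) = n) :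
    lam ι e T a ≠ 0 ∧ w.ord (lam ι e T a) = μ * n := by
  obtain ⟨t, ht, ht0, -⟩ := exists_ord_eq_one v
  have htn : t ^ (-n) ≠ 0 := zpow_ne_zero _ ht0
  have hord : ∀ s, a s ≠ 0 → v.ord (a s * t ^ (-n)) = v.ord (a s) - n := by
    intro s hs
    rw [v.ord_mul hs htn, Place.ord_zpow, ht]
    ring
  obtain ⟨k1, k2⟩ := abs_ord_lam_zero hF h hμ hw T (fun s => a s * t ^ (-n))
    (fun s hs => by
      by_cases hz : a s = 0
      · simp [hz]
      · show 0 ≤ v.ord (a s * t ^ (-n))
        rw [hord s hz]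
        have := (hn s hs).resolve_left hz
        omega) s₀ hs₀ (mul_ne_zero h0 htn) (by
      show v.ord (a s₀ * t ^ (-n)) = 0
      rw [hord s₀ h0, h1, sub_self])
  rw [abs_lam_mul] at k1 k2
  have hl : lam ι e T a ≠ 0 := left_ne_zero_of_mul k1
  refine ⟨hl, ?_⟩
  rw [w.ord_mul hl ((map_ne_zero ι).2 htn), hw, Place.ord_zpow, ht] at k2
  linarith

/-- the minimum used in the key formula. -/
theorem exists_min (v : Place K F) (T : Finset S) (a : S → F) (h : lam ι e T a ≠ 0) :
    ∃ (n : ℤ) (s₀ : S), (∀ s ∈ T, a s = 0 ∨ n ≤ v.ord (a s)) ∧ s₀ ∈ T ∧ a s₀ ≠ 0 ∧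
      v.ord (a s₀) = n := by
  classical
  have hne : (T.filter fun s => a s ≠ 0).Nonempty := by
    by_contra hcon
    rw [Finset.not_nonempty_iff_eq_empty] at hcon
    apply h
    unfold lam
    apply Finset.sum_eq_zero
    intro s hs
    have : a s = 0 := by
      by_contra hz
      have : s ∈ T.filter fun s => a s ≠ 0 := Finset.mem_filter.2 ⟨hs, hz⟩
      rw [hcon] at this
      simp at this
    rw [this, map_zero, mul_zero]
  obtain ⟨s₀, hs₀, hmin⟩ := Finset.exists_min_image _ (fun s => v.ord (a s)) hne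
  rw [Finset.mem_filter] at hs₀
  refine ⟨v.ord (a s₀), s₀, fun s hs => ?_, hs₀.1, hs₀.2, rfl⟩
  by_cases hz : a s = 0
  · exact Or.inl hz
  · exact Or.inr (hmin s (Finset.mem_filter.2 ⟨hs, hz⟩))

/-- there is at most one place of `F'` over a place of `F`. -/
theorem Over.unique [IsAlgClosed K] (hF : IsFF1 K F) (h : IsBC i ι e)
    {w w' : Place K' F'} {v : Place K F} {μ μ' : ℤ} (hμ : 0 < μ) (hμ' : 0 < μ')
    (hw : Over ι w v μ) (hw' : Over ι w' v μ') : w = w' := by
  apply place_ext_of_le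
  intro y hy
  by_cases hy0 : y = 0
  · rw [hy0]; exact zero_mem _
  obtain ⟨T, a, c, hc, hyc⟩ := h.span y
  have ha : lam ι e T a ≠ 0 := by rw [← hyc]; exact mul_ne_zero hy0 hc
  obtain ⟨n, s₀, p1, p2, p3, p4⟩ := exists_min (ι := ι) (e := e) v T a ha
  obtain ⟨n', s₀', q1, q2, q3, q4⟩ := exists_min (ι := ι) (e := e) v T c hc
  have e1 := (ord_lam hF h hμ hw T a n p1 s₀ p2 p3 p4).2
  have e2 := (ord_lam hF h hμ hw T c n' q1 s₀' q2 q3 q4).2
  have e1' := (ord_lam hF h hμ' hw' T a n p1 s₀ p2 p3 p4).2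
  have e2' := (ord_lam hF h hμ' hw' T c n' q1 s₀' q2 q3 q4).2
  have f1 := w.ord_mul hy0 hc
  have f2 := w'.ord_mul hy0 hc
  rw [hyc] at f1 f2
  have g1 : 0 ≤ w.ord y := ord_nonneg_of_mem w hy
  apply mem_of_ord_nonneg
  have g2 : w.ord y = μ * (n - n') := by rw [mul_sub]; omega
  have g3 : w'.ord y = μ' * (n - n') := by rw [mul_sub]; omega
  rw [g2] at g1
  rw [g3]
  have : 0 ≤ n - n' := by
    by_contra hneg
    rw [not_le] at hneg
    nlinarith
  positivity

/-- the multiplicity is one. -/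
theorem Over.eq_one [IsAlgClosed K] (hF : IsFF1 K F) (h : IsBC i ι e)
    {w : Place K' F'} {v : Place K F} {μ : ℤ} (hμ : 0 < μ) (hw : Over ι w v μ) : μ = 1 := by
  obtain ⟨y, hy, hy0, -⟩ := exists_ord_eq_one w
  obtain ⟨T, a, c, hc, hyc⟩ := h.span y
  have ha : lam ι e T a ≠ 0 := by rw [← hyc]; exact mul_ne_zero hy0 hc
  obtain ⟨n, s₀, p1, p2, p3, p4⟩ := exists_min (ι := ι) (e := e) v T a ha
  obtain ⟨n', s₀', q1, q2, q3, q4⟩ := exists_min (ι := ι) (e := e) v T c hc
  have e1 := (ord_lam hF h hμ hw T a n p1 s₀ p2 p3 p4).2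
  have e2 := (ord_lam hF h hμ hw T c n' q1 s₀' q2 q3 q4).2
  have f1 := w.ord_mul hy0 hc
  rw [hyc, hy, e1, e2] at f1
  have hd : μ ∣ 1 := ⟨n - n', by rw [mul_sub]; omega⟩
  exact Int.eq_one_of_dvd_one hμ.le hd

/-- a place of `F'` which is not trivial on `F` lies over a place of `F`. -/
theorem exists_over_of_ne [IsAlgClosed K] (hF : IsFF1 K F) (h : IsBC i ι e)
    (w : Place K' F') {f : F} (hf : w.ord (ι f) ≠ 0) : ∃ v : Place K F, Over ι w v 1 := by
  have hf0 : f ≠ 0 := by
    rintro rfl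
    rw [map_zero, Place.ord_zero] at hf
    exact hf rfl
  have hval : IsVal K (fun g : F => w.ord (ι g)) :=
    { map_mul := fun a b ha hb => by
        simp only [map_mul]
        exact w.ord_mul ((map_ne_zero ι).2 ha) ((map_ne_zero ι).2 hb)
      map_add := fun a b _ _ hab => by
        simp only [map_add]
        exact min_le_ord_add w (by rw [← map_add]; exact (map_ne_zero ι).2 hab)
      map_const := fun a _ => by
        simp only [h.compat]
        exact (ord_algebraMap w _).ge
      nontrivial := ⟨f, hf0, hf⟩ }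
  obtain ⟨v, μ, hμ, hv, -⟩ := hval.exists_place
  have hov : Over ι w v μ := by
    intro g
    by_cases hg : g = 0
    · simp [hg]
    · exact hv g hg
  have := hov.eq_one hF h hμ
  subst this
  exact ⟨v, hov⟩

/-- a place of `F'` lies over at most one place of `F`. -/
theorem Over.injective {w : Place K' F'} {v v' : Place K F} (hw : Over ι w v 1)
    (hw' : Over ι w v' 1) : v = v' := by
  apply place_ext_of_le
  intro f hf
  apply mem_of_ord_nonneg
  have h1 := hw f
  have h2 := hw' f
  have h3 := ord_nonneg_of_mem v hf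
  omega

/-- a function without poles is constant. -/
theorem mem_range_of_ord_nonneg [IsAlgClosed K] [CharZero K] (hF : IsFF1 K F) {f : F}
    (hf : ∀ v : Place K F, 0 ≤ v.ord f) : f ∈ Set.range (algebraMap K F) := by
  by_contra hr
  have ht : Transcendental K f := transcendental_of_not_mem_range hr
  have ht' : Transcendental K f⁻¹ := by
    intro halg
    apply ht
    have := halg.inv
    rwa [inv_inv] at this
  obtain ⟨s, hs, hsum⟩ := SumOrd.exists_finset hF ht'
  haveI := hF.finiteDimensional ht'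
  have hpos : 0 < Module.finrank (IntermediateField.adjoin K {f⁻¹}) F := Module.finrank_pos
  have hne : s.Nonempty := by
    by_contra hcon
    rw [Finset.not_nonempty_iff_eq_empty] at hcon
    rw [hcon, Finset.sum_empty] at hsum
    have : (0 : ℤ) < Module.finrank (IntermediateField.adjoin K {f⁻¹}) F := by exact_mod_cast hpos
    omega
  obtain ⟨v, hv⟩ := hne
  have h1 := (hs v).1 hv
  rw [Place.ord_inv] at h1
  have := hf v
  omega

end Fermat.Agent.DIV.BC
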