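import Fermat.Agent.DIV.BC.Span
import Fermat.Agent.NV.Desc

set_option autoImplicit false

/-!
# DIV task BC-Desc : Galois action on the places of `C24.FN N`, descent of functions

Notation: `ι = iotaF N`, `g σ = arithmeticGalois (modularFunctionFieldFull N) σ`, `g σ • y = arC N σ y` (`rfl`, see `NV.divBy_arC`).

SKETCH.
* `arC_iotaF`: coefficientwise (`Subtype.ext`, `HahnSeries.ext`, `NV.Desc.coeff_arC`, `coe_iotaF`, `ModularCurve.coeffMap_coeff`).
* `ord_smul_iotaF`: `SemilinearAut.ord_smul (g σ) w (ι f)` and `arC_iotaF`.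
* `smul_eq_of_over`: `g σ • w` lies over `v` by `ord_smul_iotaF`; `BC.Over.unique` (with `S24.isFF1_FN N`, `exists_isBC N`).
* `exists_descent_fun`:
  (1) for `σ` fixing `Kb` and every place `w`: `w.ord (arC N σ h) = w.ord h`.  Put `w₀ = (g σ)⁻¹ • w`, so `w = g σ • w₀` and `w.ord (arC N σ h) = w₀.ord h` (`ord_smul`).  If `w₀.ord (ι f) = 0` for all `f`, the same
      holds for `w` (`ord_smul_iotaF`) and both sides vanish by `hs`.  Otherwise `BC.exists_over_of_ne` gives `v` under `w₀` and `w = w₀` by `smul_eq_of_over`.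
  (2) so `arC N σ h / h` has no zeros and no poles: it is a constant (`BC.mem_range_of_ord_nonneg (C24.isFF1_FN N)`).
  (3) let `c = h.1.leadingCoeff ≠ 0`, `h₁ = c⁻¹ • h`, so `h₁.1.leadingCoeff = 1`.  `arC N σ h₁ = c' • h₁`; comparing leading coefficients (`NV.Canon.order_coeffMap`, `NV.Canon.leadingCoeff_coeffMap`,
      `NV.Canon.leadingCoeff_C`, `HahnSeries.leadingCoeff_mul`): `c' = 1`.
  (4) every coefficient `x` of `h₁.1` is fixed by all `σ` fixing `Kb`, so `x ∈ iotaKC.range` (`NV.exists_infinite_orbit`: otherwise `σ 0 x ≠ σ 1 x`).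
  (5) conclude as at the end of `NV.exists_descent` (`NV/Desc.lean`): `h₁.1 = coeffMap iotaKC x₀`, `NV.mem_of_coeffMap_mem`.
-/

namespace Fermat.Agent.DIV

open AlgebraicCurve Fermat.Agent.NV
open Fermat.Agent.S24 (Kb)
open Fermat.Agent.C24 (Kc)

theorem arC_iotaF (N : ℕ) [NeZero N] (σ : Kc ≃ₐ[ℚ] Kc) (hσ : ∀ a, σ (iotaKC a) = iotaKC a)
    (f : S24.FN N) : arC N σ (iotaF N f) = iotaF N f := by
  apply Subtype.ext
  apply HahnSeries.ext
  funext n
  show (arC N σ (iotaF N f)).1.coeff n = (iotaF N f).1.coeff n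
  rw [Desc.coeff_arC, coe_iotaF, ModularCurve.coeffMap_coeff, hσ]

theorem ord_smul_iotaF (N : ℕ) [NeZero N] (σ : Kc ≃ₐ[ℚ] Kc) (hσ : ∀ a, σ (iotaKC a) = iotaKC a)
    (w : Place Kc (C24.FN N)) (f : S24.FN N) :
    (ModularCurve.arithmeticGalois (ModularCurve.modularFunctionFieldFull N) σ • w).ord (iotaF N f)
      = w.ord (iotaF N f) := by
  set g := ModularCurve.arithmeticGalois (ModularCurve.modularFunctionFieldFull N) σ with hg
  have h1 := AlgebraicCurve.SemilinearAut.ord_smul g w (iotaF N f)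
  have h2 : g • iotaF N f = arC N σ (iotaF N f) := rfl
  rwa [h2, arC_iotaF N σ hσ] at h1

theorem smul_eq_of_over (N : ℕ) [NeZero N] (σ : Kc ≃ₐ[ℚ] Kc)
    (hσ : ∀ a, σ (iotaKC a) = iotaKC a) (w : Place Kc (C24.FN N)) (v : Place Kb (S24.FN N))
    (hw : BC.Over (iotaF N) w v 1) :
    ModularCurve.arithmeticGalois (ModularCurve.modularFunctionFieldFull N) σ • w = w := by
  obtain ⟨S, e, hbc⟩ := exists_isBC N
  exact BC.Over.unique (S24.isFF1_FN N) hbc one_pos one_pos
    (fun f => by rw [ord_smul_iotaF N σ hσ, hw f]) hw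

namespace DescF

/-- step (1). -/
theorem ord_arC (N : ℕ) [NeZero N] (h : C24.FN N)
    (hs : ∀ w : Place Kc (C24.FN N), (∀ f, w.ord (iotaF N f) = 0) → w.ord h = 0)
    (σ : Kc ≃ₐ[ℚ] Kc) (hσ : ∀ a, σ (iotaKC a) = iotaKC a) (w : Place Kc (C24.FN N)) :
    w.ord (arC N σ h) = w.ord h := by
  obtain ⟨S, e, hbc⟩ := exists_isBC N
  set g := ModularCurve.arithmeticGalois (ModularCurve.modularFunctionFieldFull N) σ with hg
  have h1 := AlgebraicCurve.SemilinearAut.ord_smul g (g⁻¹ • w) h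
  rw [smul_inv_smul] at h1
  have h2 : g • h = arC N σ h := rfl
  rw [h2] at h1
  rw [h1]
  by_cases htriv : ∀ f, (g⁻¹ • w).ord (iotaF N f) = 0
  · rw [hs _ htriv]
    symm
    apply hs
    intro f
    have h3 := ord_smul_iotaF N σ hσ (g⁻¹ • w) f
    rw [← hg, smul_inv_smul] at h3
    rw [h3, htriv]
  · push Not at htriv
    obtain ⟨f, hf⟩ := htriv
    obtain ⟨v, hv⟩ := BC.exists_over_of_ne (S24.isFF1_FN N) hbc _ hf
    have h3 := smul_eq_of_over N σ hσ _ v hv
    rw [← hg, smul_inv_smul] at h3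
    rw [← h3]

/-- steps (2), (3). -/
theorem arC_eq (N : ℕ) [NeZero N] (h : C24.FN N) (h0 : h ≠ 0)
    (hs : ∀ w : Place Kc (C24.FN N), (∀ f, w.ord (iotaF N f) = 0) → w.ord h = 0)
    (hl : h.1.leadingCoeff = 1)
    (σ : Kc ≃ₐ[ℚ] Kc) (hσ : ∀ a, σ (iotaKC a) = iotaKC a) : arC N σ h = h := by
  have hne : arC N σ h ≠ 0 := by
    rw [Ne, map_eq_zero_iff _ (arC N σ).injective]; exact h0
  obtain ⟨c, hc⟩ := BC.mem_range_of_ord_nonneg (C24.isFF1_FN N) (f := arC N σ h / h) (fun w => by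
    rw [S24.ord_div w hne h0, ord_arC N h hs σ hσ w, sub_self])
  have h1 : arC N σ h = algebraMap Kc (C24.FN N) c * h := by
    rw [hc, div_mul_cancel₀ _ h0]
  have h2 : (arC N σ h).1.leadingCoeff = 1 := by
    show (ModularCurve.coeffMap (σ : Kc →+* Kc) h.1).leadingCoeff = 1
    rw [Canon.leadingCoeff_coeffMap, hl]
    exact map_one σ
  have h3 : (algebraMap Kc (C24.FN N) c * h : C24.FN N).1 = HahnSeries.C c * h.1 := by
    show algebraMap Kc (LaurentSeries Kc) c * h.1 = _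
    rw [Rational.algebraMap_eq]
  rw [h1, h3, HahnSeries.leadingCoeff_mul, Canon.leadingCoeff_C, hl, mul_one] at h2
  rw [h1, h2, map_one, one_mul]

end DescF

/-- a function whose divisor is supported on the places defined over `Kb` is, up to a constant, defined over `Kb`. -/
theorem exists_descent_fun (N : ℕ) [NeZero N] (h : C24.FN N) (h0 : h ≠ 0)
    (hs : ∀ w : Place Kc (C24.FN N), (∀ f, w.ord (iotaF N f) = 0) → w.ord h = 0) :
    ∃ (c : Kc) (h₀ : S24.FN N), c ≠ 0 ∧ h₀ ≠ 0 ∧ h = algebraMap Kc (C24.FN N) c * iotaF N h₀ := by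
  have h0' : h.1 ≠ 0 := fun hz => h0 (Subtype.ext hz)
  set c : Kc := h.1.leadingCoeff with hc
  have hc0 : c ≠ 0 := HahnSeries.leadingCoeff_ne_zero.2 h0'
  set g : C24.FN N := algebraMap Kc (C24.FN N) c⁻¹ * h with hg
  have hcne : algebraMap Kc (C24.FN N) c⁻¹ ≠ 0 := (map_ne_zero _).2 (inv_ne_zero hc0)
  have hg0 : g ≠ 0 := mul_ne_zero hcne h0
  have hgl : g.1.leadingCoeff = 1 := by
    have h3 : g.1 = HahnSeries.C c⁻¹ * h.1 := by
      show algebraMap Kc (LaurentSeries Kc) c⁻¹ * h.1 = _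
      rw [Rational.algebraMap_eq]
    rw [h3, HahnSeries.leadingCoeff_mul, Canon.leadingCoeff_C, ← hc, inv_mul_cancel₀ hc0]
  have hgs : ∀ w : Place Kc (C24.FN N), (∀ f, w.ord (iotaF N f) = 0) → w.ord g = 0 := by
    intro w hw
    rw [hg, w.ord_mul hcne h0, S24.ord_algebraMap, zero_add, hs w hw]
  have hcoef : ∀ n, g.1.coeff n ∈ iotaKC.range := by
    intro n
    by_contra hx
    obtain ⟨σ, hσ, hσinj⟩ := exists_infinite_orbit _ hx
    have e0 := congrArg (fun y : C24.FN N => y.1.coeff n) (DescF.arC_eq N g hg0 hgs hgl (σ 0) (hσ 0))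
    have e1 := congrArg (fun y : C24.FN N => y.1.coeff n) (DescF.arC_eq N g hg0 hgs hgl (σ 1) (hσ 1))
    have e2 : σ 0 (g.1.coeff n) = σ 1 (g.1.coeff n) := by
      have e0' : σ 0 (g.1.coeff n) = g.1.coeff n := e0
      have e1' : σ 1 (g.1.coeff n) = g.1.coeff n := e1
      rw [e0', e1']
    exact zero_ne_one (hσinj e2)
  choose d hd using hcoef
  have hsupp : Function.support d ⊆ g.1.support := by
    intro n hn
    rw [HahnSeries.mem_support, ← hd n]
    exact fun hz => hn ((map_eq_zero iotaKC).mp hz)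
  have hg₀ : ModularCurve.coeffMap iotaKC (⟨d, g.1.isPWO_support.mono hsupp⟩ : LaurentSeries Kb)
      = g.1 := by
    ext n
    rw [ModularCurve.coeffMap_coeff]
    exact hd n
  have hmem := mem_of_coeffMap_mem N (⟨d, g.1.isPWO_support.mono hsupp⟩ : LaurentSeries Kb)
    (by rw [hg₀]; exact g.2)
  have hι : iotaF N ⟨_, hmem⟩ = g := by
    apply Subtype.ext
    rw [coe_iotaF]
    exact hg₀
  refine ⟨c, ⟨_, hmem⟩, hc0, ?_, ?_⟩
  · intro hz
    rw [hz, map_zero] at hι
    exact hg0 hι.symm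
  · rw [hι, hg, ← mul_assoc, ← map_mul, mul_inv_cancel₀ hc0, map_one, one_mul]

end Fermat.Agent.DIV
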