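import Fermat.Agent.DIV.BC.Abs
import Fermat.Agent.NV.Bridge
import Fermat.Agent.NV.Kb.Charts
import Fermat.Agent.NV.Kc.Charts
import Fermat.Agent.NV.Kc.DivB

set_option autoImplicit false

/-!
# DIV task BC-Exists : over every place of `S24.FN N` there is a place of `C24.FN N`

SKETCH.  `theta_pt`, `theta_cusp`: both sides are ring homomorphisms `S24.FN N →+* LaurentSeries ℂ`; by `S24.theta_ext` it is enough to compare them on `thetaIncl N a`:
`iotaF (thetaIncl a) = C24.thetaIncl (iotaA a)` (`NV.thetaIncl_iotaA`), `theta_incl` on both sides, `ptChart_onB` / `cuspChart_onB` (`S24.Cards`, `C24.CardsC`), `coe_actB`, `NV.PhiB_iotaA`.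
`exists_over`: `S24.Ch.exists_chart N v` gives a chart `θ_b = S24.theta N c g` with `(θ_b f).order = μ₀ * v.ord f`, `μ₀ > 0`.  Let `θ_c` be the corresponding `C24.theta`; `θ_c (iotaF f) = θ_b f`.
`C24.Ch.divB_exists_place N θ_c` (constants: `C24.theta_const`): the first alternative is impossible (`f = iotaF t`, `v.ord t = 1`); so `(θ_c y).order = μ₁ * w.ord y`, `μ₁ > 0`.
Hence `μ₁ * w.ord (iotaF f) = μ₀ * v.ord f`; with `μ = w.ord (iotaF t)`: `μ₁ * μ = μ₀`, so `μ > 0` and `w.ord (iotaF f) = μ * v.ord f`.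
-/

open UpperHalfPlane ModularForm CongruenceSubgroup AlgebraicCurve
open scoped MatrixGroups Manifold

namespace Fermat.Agent.DIV

open Fermat.Agent.NV
open Fermat.Agent.S24 (Kb)
open Fermat.Agent.C24 (Kc)

theorem theta_pt (N : ℕ) [NeZero N] (τ : ℍ) (g : SL(2, ℤ)) (f : S24.FN N) :
    C24.theta N (C24.ptChart N τ) g (iotaF N f) = S24.theta N (S24.ptChart N τ) g f := by
  have h : (C24.theta N (C24.ptChart N τ) g).comp (iotaF N) = S24.theta N (S24.ptChart N τ) g := by
    apply S24.theta_ext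
    intro a
    rw [RingHom.comp_apply, ← thetaIncl_iotaA, C24.theta_incl, S24.theta_incl,
      C24.CardsC.ptChart_onB, S24.Cards.ptChart_onB]
    congr 1
    apply Subtype.ext
    show (C24.actB N g (C24.PhiB N (iotaA N a)) : ℍ → ℂ) = (S24.actB N g (S24.PhiB N a) : ℍ → ℂ)
    rw [C24.coe_actB, S24.coe_actB, PhiB_iotaA]
  exact congrArg (fun φ : S24.FN N →+* LaurentSeries ℂ => φ f) h

theorem theta_cusp (N : ℕ) [NeZero N] (g : SL(2, ℤ)) (f : S24.FN N) :
    C24.theta N (C24.cuspChart N) g (iotaF N f) = S24.theta N (S24.cuspChart N) g f := by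
  have h : (C24.theta N (C24.cuspChart N) g).comp (iotaF N) = S24.theta N (S24.cuspChart N) g := by
    apply S24.theta_ext
    intro a
    rw [RingHom.comp_apply, ← thetaIncl_iotaA, C24.theta_incl, S24.theta_incl,
      C24.CardsC.cuspChart_onB, S24.Cards.cuspChart_onB]
    congr 1
    apply Subtype.ext
    show (C24.actB N g (C24.PhiB N (iotaA N a)) : ℍ → ℂ) = (S24.actB N g (S24.PhiB N a) : ℍ → ℂ)
    rw [C24.coe_actB, S24.coe_actB, PhiB_iotaA]
  exact congrArg (fun φ : S24.FN N →+* LaurentSeries ℂ => φ f) h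

/-- the abstract step: a chart over `Kc` extending a chart over `Kb` which sees `v`. -/
theorem exists_over_aux (N : ℕ) [NeZero N] (v : Place Kb (S24.FN N))
    (θb : S24.FN N →+* LaurentSeries ℂ) (θc : C24.FN N →+* LaurentSeries ℂ)
    (hθ : ∀ f, θc (iotaF N f) = θb f)
    (hc : ∀ a : Kc, ∃ c : ℂ, θc (algebraMap Kc (C24.FN N) a) = HahnSeries.C c)
    (μ₀ : ℤ) (hμ₀ : 0 < μ₀) (hv : ∀ f : S24.FN N, f ≠ 0 → (θb f).order = μ₀ * v.ord f) :
    ∃ (w : Place Kc (C24.FN N)) (μ : ℤ), 0 < μ ∧ BC.Over (iotaF N) w v μ := by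
  obtain ⟨t, ht, ht0, -⟩ := S24.exists_ord_eq_one v
  have hιt : iotaF N t ≠ 0 := (map_ne_zero _).2 ht0
  rcases C24.Ch.divB_exists_place N θc hc with h | ⟨w, μ₁, hμ₁, hw⟩
  · exfalso
    have h1 := h _ hιt
    rw [hθ, hv t ht0, ht, mul_one] at h1
    omega
  · have key : ∀ f : S24.FN N, f ≠ 0 → μ₁ * w.ord (iotaF N f) = μ₀ * v.ord f := by
      intro f hf
      rw [← hw _ ((map_ne_zero _).2 hf), hθ, hv f hf]
    have h1 := key t ht0
    rw [ht, mul_one] at h1
    refine ⟨w, w.ord (iotaF N t), ?_, ?_⟩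
    · by_contra hneg
      rw [not_lt] at hneg
      nlinarith
    · intro f
      by_cases hf : f = 0
      · simp [hf]
      · have h2 := key f hf
        rw [← h1, mul_assoc] at h2
        exact mul_left_cancel₀ hμ₁.ne' h2

theorem exists_over (N : ℕ) [NeZero N] (v : Place Kb (S24.FN N)) :
    ∃ (w : Place Kc (C24.FN N)) (μ : ℤ), 0 < μ ∧ BC.Over (iotaF N) w v μ := by
  rcases S24.Ch.exists_chart N v with ⟨τ, g, h⟩ | ⟨g, -, h⟩ | ⟨g, -, h⟩ | ⟨g, k, μ, hk, -, hμ, h⟩
  · exact exists_over_aux N v _ _ (theta_pt N τ g) (fun a => ⟨_, C24.theta_const N _ g a⟩) 1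
      one_pos (fun f hf => by rw [h f hf, one_mul])
  · exact exists_over_aux N v _ _ (theta_pt N _ g) (fun a => ⟨_, C24.theta_const N _ g a⟩) 2
      two_pos h
  · exact exists_over_aux N v _ _ (theta_pt N _ g) (fun a => ⟨_, C24.theta_const N _ g a⟩) 3
      three_pos h
  · refine exists_over_aux N v _ _ (theta_cusp N g) (fun a => ⟨_, C24.theta_const N _ g a⟩) μ
      ?_ h
    have hN : (0 : ℤ) < N := by exact_mod_cast Nat.pos_of_ne_zero (NeZero.ne N)
    have hk' : (0 : ℤ) < k := by exact_mod_cast hk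
    by_contra hneg
    rw [not_lt] at hneg
    nlinarith

end Fermat.Agent.DIV
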