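import Fermat.Agent.DIV.BC.Abs
import Fermat.Agent.NV.Rational

set_option autoImplicit false

/-!
# DIV task BC-Span : `C24.FN N` is the base change of `S24.FN N`

SKETCH.  `letI : Algebra Kb Kc := iotaKC.toAlgebra`, `b := Module.Basis.ofVectorSpace Kb Kc`, `S` its index type, `e = b`  (as in `NV.mem_of_coeffMap_mem`, `NV/Rational.lean`).
* `compat`: `Subtype.ext`, `coe_iotaF`, `NV.Bridge.coeffMap_const`.
* `li`: `b.linearIndependent`, `linearIndependent_iff'` (`c • b s = iotaKC c * b s` by `Algebra.smul_def`, `rfl`).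
* `span`: `y = u / w` with `u w ∈ C24.A0 N`, `w ≠ 0` (`C24.exists_div_A0` / `C24.thetaIncl_exists_div`).  CLAIM: every `u ∈ C24.A0 N` is `∑_{s ∈ T} b_s ι(a_s)`:
  by `NV.Rational.isSpan_of_mem`, `u = ∑_i C (e_i) * coeffMap iotaKC (a_i)`, `a_i ∈ A0 N`; `e_i = ∑_s (b.repr e_i s) • b_s` (`b.linearCombination_repr` / `Module.Basis.sum_repr`),
  so `u = ∑_s b_s ι(∑_i (b.repr e_i s) • a_i)`, the sum over the (finite) union of the supports.  It is convenient to prove the claim with a finitely supported `a : S →₀ S24.FN N`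
  (closed under sums by `Finsupp.sum_add_index'`), and to pass to a common `T = a.support ∪ c.support` at the end (`Finsupp.sum_of_support_subset`).
-/

namespace Fermat.Agent.DIV

open AlgebraicCurve Fermat.Agent.NV
open Fermat.Agent.S24 (Kb)
open Fermat.Agent.C24 (Kc)

namespace Span

open ModularCurve

/-- the underlying Laurent series of `lam`. -/
theorem coe_lam (N : ℕ) [NeZero N] {S : Type} (e : S → Kc) (T : Finset S) (a : S → S24.FN N) :
    ((BC.lam (iotaF N) e T a : C24.FN N) : LaurentSeries Kc) =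
      ∑ s ∈ T, HahnSeries.C (e s) * coeffMap iotaKC (a s).1 := by
  unfold BC.lam
  have h := map_sum (C24.mffC N).val (fun s => algebraMap Kc (C24.FN N) (e s) * iotaF N (a s)) T
  refine h.trans (Finset.sum_congr rfl fun s _ => ?_)
  rw [map_mul]
  congr 1
  exact Rational.algebraMap_eq (e s)

/-- sums `∑ b_s ι(a_s)`, `a` finitely supported. -/
def Rep (N : ℕ) {S : Type} (e : S → Kc) (y : LaurentSeries Kc) : Prop :=
  ∃ a : S →₀ S24.FN N, y = a.sum fun s x => HahnSeries.C (e s) * coeffMap iotaKC x.1

theorem Rep.add {N : ℕ} {S : Type} {e : S → Kc} {y y' : LaurentSeries Kc} (h : Rep N e y)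
    (h' : Rep N e y') : Rep N e (y + y') := by
  classical
  obtain ⟨a, rfl⟩ := h
  obtain ⟨a', rfl⟩ := h'
  refine ⟨a + a', ?_⟩
  rw [Finsupp.sum_add_index']
  · intro s
    simp
  · intro s x x'
    rw [← mul_add, ← map_add]
    rfl

theorem rep_zero (N : ℕ) {S : Type} (e : S → Kc) : Rep N e 0 := ⟨0, by simp⟩

theorem rep_sum {N : ℕ} {S : Type} {e : S → Kc} {I : Type} (J : Finset I)
    (y : I → LaurentSeries Kc) (h : ∀ i ∈ J, Rep N e (y i)) : Rep N e (∑ i ∈ J, y i) := by
  classical
  induction J using Finset.induction_on with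
  | empty => simpa using rep_zero N e
  | insert i J hi ih =>
    rw [Finset.sum_insert hi]
    exact (h i (Finset.mem_insert_self i J)).add
      (ih fun j hj => h j (Finset.mem_insert_of_mem hj))

end Span

theorem exists_isBC (N : ℕ) [NeZero N] :
    ∃ (S : Type) (e : S → Kc), BC.IsBC (F := S24.FN N) (F' := C24.FN N) iotaKC (iotaF N) e := by
  classical
  letI : Algebra Kb Kc := iotaKC.toAlgebra
  let b := Module.Basis.ofVectorSpace Kb Kc
  have hsmul : ∀ (c : Kb) (x : Kc), c • x = x * iotaKC c := by
    intro c x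
    rw [Algebra.smul_def, mul_comm]
    rfl
  -- the basic representation
  have hB : ∀ (x : Kc) (a : S24.FN N),
      Span.Rep N b (HahnSeries.C x * ModularCurve.coeffMap iotaKC a.1) := by
    intro x a
    refine ⟨(b.repr x).mapRange (fun c => algebraMap Kb (S24.FN N) c * a) (by simp), ?_⟩
    rw [Finsupp.sum_mapRange_index (by intro s; simp)]
    have h1 : x = (b.repr x).sum fun s c => b s * iotaKC c := by
      conv_lhs => rw [← b.linearCombination_repr x, Finsupp.linearCombination_apply]
      exact Finsupp.sum_congr fun s _ => hsmul _ _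
    conv_lhs => rw [h1]
    unfold Finsupp.sum
    rw [map_sum, Finset.sum_mul]
    refine Finset.sum_congr rfl fun s _ => ?_
    have h2 : ((algebraMap Kb (S24.FN N) (b.repr x s) * a : S24.FN N) : LaurentSeries Kb) =
        algebraMap Kb (LaurentSeries Kb) (b.repr x s) * a.1 := rfl
    beta_reduce
    rw [h2, map_mul, map_mul, Bridge.coeffMap_const, Rational.algebraMap_eq, mul_assoc]
  have hA : ∀ u ∈ C24.A0 N, Span.Rep N b u := by
    intro u hu
    obtain ⟨I, _, x, a, ha, rfl⟩ := Rational.isSpan_of_mem N u hu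
    exact Span.rep_sum _ _ fun i _ => hB (x i) ⟨a i, S24.A0_le N _ (ha i)⟩
  refine ⟨_, b, ?_, ?_, ?_⟩
  · intro a
    apply Subtype.ext
    rw [coe_iotaF]
    exact Bridge.coeffMap_const a
  · intro T c hc
    have hli := b.linearIndependent
    rw [linearIndependent_iff'] at hli
    refine hli T c ?_
    rw [← hc]
    exact Finset.sum_congr rfl fun s _ => hsmul _ _
  · intro y
    obtain ⟨u, hu, w, hw, hw0, hy⟩ := C24.exists_div_A0 N y.1 y.2
    obtain ⟨a, ha⟩ := hA u hu
    obtain ⟨c, hc⟩ := hA w hw
    have hz : ∀ s ∈ a.support ∪ c.support, (fun s (x : S24.FN N) =>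
        HahnSeries.C (b s) * ModularCurve.coeffMap iotaKC x.1) s 0 = 0 := by
      intro s _
      show HahnSeries.C (b s) * ModularCurve.coeffMap iotaKC (0 : LaurentSeries Kb) = 0
      rw [map_zero, mul_zero]
    have ea : ((BC.lam (iotaF N) b (a.support ∪ c.support) a : C24.FN N) : LaurentSeries Kc) = u := by
      rw [Span.coe_lam, ha]
      exact (Finsupp.sum_of_support_subset a Finset.subset_union_left
        (fun s (x : S24.FN N) => HahnSeries.C (b s) * ModularCurve.coeffMap iotaKC x.1) hz).symm
    have ec : ((BC.lam (iotaF N) b (a.support ∪ c.support) c : C24.FN N) : LaurentSeries Kc) = w := by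
      rw [Span.coe_lam, hc]
      exact (Finsupp.sum_of_support_subset c Finset.subset_union_right
        (fun s (x : S24.FN N) => HahnSeries.C (b s) * ModularCurve.coeffMap iotaKC x.1) hz).symm
    refine ⟨a.support ∪ c.support, a, c, ?_, ?_⟩
    · intro h0
      apply hw0
      rw [← ec, h0]
      rfl
    · apply Subtype.ext
      show y.1 * ((BC.lam (iotaF N) b (a.support ∪ c.support) c : C24.FN N) : LaurentSeries Kc) = _
      rw [ea, ec, hy, div_mul_cancel₀ _ hw0]

end Fermat.Agent.DIV
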